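import Fermat.Agent.General.MazurThree.PairExp
import Fermat.Agent.MazurPrinciple.Eigen
import Fermat.Agent.MazurPrinciple.Descent
import Fermat.Agent.EigenSystems.FromForms
import Fermat.Agent.Row39.Descent

/-!
# Mazur's principle at `p = 3`

A prime `q ≢ 1 (mod 3)`, `q ≠ 3`, at which `E[3]` is unramified leaves a squarefree level which
contains a further prime `r ≡ 2 (mod 3)`: with such a prime the exponents at the pairs of
`X₀(M q)` at `q` are prime to `3`, and the proof for `p ≥ 5` applies.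
-/

noncomputable section

namespace Fermat.Agent.General

namespace MazurThree

open IsLocalRing ModularCurve AlgebraicCurve Matrix Fermat.Agent.EigenRep
  Fermat.Agent.SemistableRed Fermat.Agent.LevelP Fermat.Agent.MazurPrinciple

local notation "Qbar" => AlgebraicClosure ℚ

section Torsion

open Fermat.Agent.Reduction Fermat.Agent.FunctionFieldRR Fermat.Agent.OrdinaryT

attribute [local instance] HeckeJ0.hasPrincipalDivisors_bar

variable {A : ValuationSubring Qbar} {M q : ℕ} [NeZero M] [NeZero q] [Fact q.Prime]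
  [CharP (ResidueField A) q] [IsAlgClosed (ResidueField A)] {S : Setting A M q}
  {p k : ℕ} [Fact p.Prime]

include S in
/-- **`φ = - q w_q` on `Q (T_ℓ - ℓ - 1) x`.** -/
theorem smul_add_of_killed_three {φ : Qbar ≃ₐ[ℚ] Qbar} (hφ : A.IsFrobeniusAt φ q) (hp : p = 3) {r : ℕ}
    [NeZero r] (hr : r ∣ M) (hmod : (r : ZMod 3) = q) (h3 : (q : ZMod 3) ≠ 0)
    (hpq : p ≠ q) {x : JZero (M * q)} (hx : p ^ k • x = 0)
    (hfix : ∀ σ ∈ A.inertiaSubgroupIn ℚ, σ • x = x) {ℓ : ℕ} [NeZero ℓ] (hℓ : ℓ.Prime)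
    (hℓN : ¬ ℓ ∣ M * q * p) (Q : GoodHecke (M * q * p))
    (hQ : ∀ ξ : JZero M, p ^ k • ξ = 0 → (letI := heckeModuleBar M; toHecke Q • ξ) = 0)
    {y : JZero (M * q)}
    (hy : y = (letI := heckeModuleBar (M * q);
      toHecke Q • (heckeOperatorAlong Qbar (M * q) ℓ x - (ℓ + 1) • x))) :
    φ • y + q • (SemilinearAut.ofAlgAut S.w • y) = 0 := by
  have := isFunctionField_level (M * q)
  have := S.isFunctionField_C
  have : HasPrincipalDivisors (ResidueField A) (modularFunctionFieldFullC (ResidueField A) M) :=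
    FunctionFieldRR.hasPrincipalDivisors
  have : CharP (modularFunctionFieldFullC (ResidueField A) M) q :=
    charP_of_injective_algebraMap (algebraMap (ResidueField A) _).injective q
  obtain ⟨U⟩ := nonempty_levelUnit S
  obtain ⟨hI, R, hR⟩ := exists_redMap_modL S
  have hp' : p.Prime := Fact.out
  have hn : p ^ k ≠ 0 := pow_ne_zero _ hp'.ne_zero
  have hcop : ∀ z (hz : z ∈ S.splitModel.pairs), (p ^ k).Coprime (pairAt U hz).e := fun z hz =>
    Nat.Coprime.pow_left k ((hp'.coprime_iff_not_dvd).mpr (hp ▸ coprime_pair U hr hmod h3 hz))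
  have hℓMq : ¬ ℓ ∣ M * q := fun h => hℓN (h.mul_right p)
  let := heckeModuleBar (M * q)
  have hk0 : ∀ {x : JZero (M * q)}, p ^ k • x = 0 →
      (∀ σ ∈ A.inertiaSubgroupIn ℚ, σ • x = x) →
      toHecke Q • (heckeOperatorAlong Qbar (M * q) ℓ x - (ℓ + 1) • x) ∈
        killed S.splitModel 0 (p ^ k) := by
    intro x hx hfix
    obtain ⟨ξ₀, hξ₀⟩ := exists_lifted U R hn hcop hx hfix hℓ hℓMq
    obtain ⟨ξ, hξ0, hξ⟩ := hξ₀.exists_torsion (Fact.out : p.Prime) hpq hR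
    have h1 := hξ.poly (MvPolynomial.rename
      (fun r : {r : Nat.Primes // ¬ (r : ℕ) ∣ M * q * p} =>
        (⟨r.1, fun h' => r.2 (h'.trans (dvd_mul_right _ p))⟩ :
          {r : Nat.Primes // ¬ (r : ℕ) ∣ M * q})) Q)
    rw [toHecke_rename (dvd_mul_right _ p), hQ ξ hξ0] at h1
    exact h1.mem_killed hn
  have hwx : p ^ k • wJ S x = 0 := by rw [← map_nsmul, hx, map_zero]
  have hwfix : ∀ σ ∈ A.inertiaSubgroupIn ℚ, σ • wJ S x = wJ S x := fun σ hσ => by
    rw [← isGaloisEquivariant_wJ σ x, hfix σ hσ]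
  have hw : wJ S y =
      toHecke Q • (heckeOperatorAlong Qbar (M * q) ℓ (wJ S x) - (ℓ + 1) • wJ S x) := by
    rw [hy, wJ_heckePoly (p := p) (k := k) Q ?_, map_sub, map_nsmul,
      map_heckeOperatorAlong (p := p) isGaloisEquivariant_wJ hℓ hℓN hx]
    rw [nsmul_sub, ← map_nsmul, hx, map_zero, smul_comm, hx, smul_zero, sub_zero]
  obtain ⟨Rep, hRep⟩ := exists_rep_of_killed hn (hy ▸ hk0 hx hfix)
    (mem_killed_one_of_wJ (hw ▸ hk0 hwx hwfix))
  have hnk : ((p ^ k : ℕ) : ResidueField A) ≠ 0 := by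
    rw [Ne, CharP.cast_eq_zero_iff (ResidueField A) q]
    exact fun h => hpq ((Nat.prime_dvd_prime_iff_eq Fact.out hp').mp
      ((Fact.out : q.Prime).dvd_of_dvd_pow h)).symm
  rw [← hRep]
  exact S.smul_cls_add hφ hnk Rep

end Torsion

section Descend

open CongruenceSubgroup

local notation "Jtors" N:max n:max => Pic0.torsion (AlgebraicClosure ℚ) (modularFunctionFieldBar N) n

variable {p : ℕ} [Fact p.Prime] {W : WeierstrassCurve ℤ}

/-- `(φ + q w) P (T_ℓ - ℓ - 1)` on the coordinates of the vectors fixed by inertia. -/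
theorem mulVec_eq_zero_of_inertia_three {A : ValuationSubring Qbar} {M q : ℕ} [NeZero M] [NeZero q]
    [Fact q.Prime] [CharP (ResidueField A) q] [IsAlgClosed (ResidueField A)] {S : Setting A M q}
    {φ : Qbar ≃ₐ[ℚ] Qbar} (hφ : A.IsFrobeniusAt φ q) (hp : p = 3) {r : ℕ} [NeZero r]
    (hr : r ∣ M) (hmod : (r : ZMod 3) = q) (h3 : (q : ZMod 3) ≠ 0) (hqp : q ≠ p) {ℓ k : ℕ}
    [NeZero ℓ] (hℓ : ℓ.Prime) (hℓN : ¬ ℓ ∣ M * q * p) (P : GoodHecke (M * q * p))
    (hP : ∀ ξ : JZero M, p ^ k • ξ = 0 → (letI := heckeModuleBar M; toHecke P • ξ) = 0)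
    (I : RepInputs (M * q) p) {E : Matrix (Fin I.model.d) (Fin I.model.d) (ZMod (p ^ k))}
    (hE : ∀ x y : Jtors (M * q) (p ^ k), (y : JZero (M * q)) = (letI := heckeModuleBar (M * q);
      toHecke (P * (MvPolynomial.X ⟨⟨ℓ, hℓ⟩, hℓN⟩ - MvPolynomial.C ((ℓ : ℤ) + 1))) •
        (x : JZero (M * q))) → I.model.e k y = E *ᵥ I.model.e k x)
    (c : Fin I.model.d → ZMod (p ^ k))
    (hc : ∀ σ : A.inertiaSubgroupIn ℚ, levelMat I.model k σ.1 *ᵥ c = c) :
    ((levelMat I.model k φ + q • mapMat I.model I.model (wJ S) k) * E) *ᵥ c = 0 := by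
  obtain ⟨x, rfl⟩ := (I.model.e k).surjective c
  have hx : p ^ k • (x : JZero (M * q)) = 0 := by
    rw [← natCast_zsmul]; exact Pic0.mem_torsion.mp x.2
  have hfix : ∀ σ ∈ A.inertiaSubgroupIn ℚ, σ • (x : JZero (M * q)) = x := fun σ hσ =>
    (JZero.coe_torsionGaloisRep_apply ..).symm.trans (congrArg Subtype.val
      ((I.model.e k).injective ((levelMat_mulVec I.model k σ x).symm.trans (hc ⟨σ, hσ⟩))))
  let := heckeModuleBar (M * q)
  set R : GoodHecke (M * q * p) :=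
    P * (MvPolynomial.X ⟨⟨ℓ, hℓ⟩, hℓN⟩ - MvPolynomial.C ((ℓ : ℤ) + 1)) with hR
  let lP : Nat.Primes := ⟨ℓ, hℓ⟩
  let y : Jtors (M * q) (p ^ k) := torsSmul (toHecke R) x
  have hy : (y : JZero (M * q)) = toHecke P • (heckeOperatorAlong Qbar (M * q) ℓ
      (x : JZero (M * q)) - (ℓ + 1) • (x : JZero (M * q))) := by
    refine (coe_torsSmul (toHecke R) x).trans ?_
    have h : toHecke R = toHecke P * (heckeGen lP - MvPolynomial.C ((ℓ : ℤ) + 1)) := by
      simp only [hR, toHecke, map_mul, map_sub, MvPolynomial.rename_X, MvPolynomial.rename_C]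
      rfl
    rw [h, mul_smul, sub_smul,
      heckeModuleBar_heckeGen_smul (HeckeJ0.heckeOperatorsCommuteBar (M * q)),
      heckeModuleBar_C_smul, show ((ℓ : ℤ) + 1) = ((ℓ + 1 : ℕ) : ℤ) by push_cast; rfl,
      natCast_zsmul]
    rfl
  have hkey := smul_add_of_killed_three (S := S) hφ hp hr hmod h3 (Ne.symm hqp) hx hfix hℓ hℓN P
    hP hy
  have hsum : JZero.torsionGaloisRep (M * q) (p ^ k) φ y + q • torsMap (wJ S) (p ^ k) y = 0 := by
    refine Subtype.ext ?_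
    generalize y = z at hkey ⊢
    refine (AddSubgroup.coe_add _ _ _).trans (Eq.trans ?_ hkey)
    exact congrArg₂ (· + ·) (JZero.coe_torsionGaloisRep_apply ..) (AddSubgroup.coe_nsmul ..)
  have hEy := hE x y (coe_torsSmul (toHecke R) x)
  rw [← mulVec_mulVec, ← hEy, add_mulVec, Matrix.smul_mulVec, levelMat_mulVec,
    mapMat_mulVec, ← map_nsmul, ← map_add, hsum, map_zero]

/-- **The eigen system of level `M q` factors through level `M`.** -/
theorem eval_eq_zero_of_annihilates_three (hΔ : W.Δ ≠ 0) (hirr : W.ModRepIsIrreducible p)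
    (hp3 : p = 3) {M q r : ℕ} [NeZero M] [NeZero r] (hr : r ∣ M) (hmod : (r : ZMod 3) = q)
    (h3 : (q : ZMod 3) ≠ 0)
    (hq : q.Prime) (hqp : q ≠ p) (hqM : ¬ q ∣ M) (hq1 : ¬ p ∣ q - 1)
    (hunr : Engine.Unramified W p q) (f : CuspForm (CongruenceSubgroup.Gamma0 (M * q)) 2)
    (𝔪 : Ideal (integralClosure ℤ ℂ)) (hf : f.IsNormalizedEigenform) (h𝔪 : 𝔪.IsMaximal)
    (hp𝔪 : (p : integralClosure ℤ ℂ) ∈ 𝔪)
    (hcongr : ∀ ℓ : ℕ, ℓ.Prime → W.IsGoodPrimeFor ℓ → ¬ ℓ ∣ M * q → ℓ ≠ p →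
      ∃ a : integralClosure ℤ ℂ, (a : ℂ) = ModularFormClass.qCoeff f ℓ ∧
        a - ((W.apOfModel ℓ : ℤ) : integralClosure ℤ ℂ) ∈ 𝔪)
    (a : Nat.Primes → integralClosure ℤ ℂ)
    (ha : ∀ r, (a r : ℂ) = ModularFormClass.qCoeff f (r : ℕ))
    (P : GoodHecke (M * q * p))
    (hP : ∀ ξ : JZero M, p • ξ = 0 → (letI := heckeModuleBar M; toHecke P • ξ) = 0) :
    MvPolynomial.eval₂ (Int.castRingHom _) (fun r => Ideal.Quotient.mk 𝔪 (a r.1)) P = 0 := by
  classical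
  by_contra hne
  have hp : p.Prime := Fact.out
  have hp2 : p ≠ 2 := by omega
  have : Fact q.Prime := ⟨hq⟩
  have : NeZero q := ⟨hq.ne_zero⟩
  obtain ⟨A, φ, hA, hφ⟩ := Frobenius.exists_liesOverPrime_and_isFrobeniusAt_qbar hq
  have := Reduction.charP_residueField hA
  have : IsAlgClosed (ResidueField A) := Reduction.isAlgClosed_residueField
  let S : Setting A M q := ⟨hqM, hA, ⟨_, IgusaGenus.reductionFacts hqM hA⟩⟩
  -- the residue field and the eigen system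
  let K := integralClosure ℤ ℂ ⧸ 𝔪
  let : Field K := Ideal.Quotient.field 𝔪
  have : IsAlgClosed K := isAlgClosed_quotient 𝔪
  have : CharP K p := by
    refine (CharP.charP_iff_prime_eq_zero hp).mpr ?_
    rw [← map_natCast (Ideal.Quotient.mk 𝔪)]
    exact Ideal.Quotient.eq_zero_iff_mem.mpr hp𝔪
  let I := Engine.TRep.levelInputs (M * q) p
  obtain ⟨g, hg⟩ := exists_eigenHom I.model hf
  let b : Nat.Primes → K := fun r => Ideal.Quotient.mk 𝔪 (a r)
  obtain ⟨v, hv, hvV⟩ := exists_eigenvector_family I ∅ ((Ideal.Quotient.mk 𝔪).comp g) b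
    fun r => congrArg (Ideal.Quotient.mk 𝔪) (Subtype.ext ((ha r.1).trans (hg r).symm))
  have : (W.map (Int.castRingHom ℚ)).IsElliptic := ⟨isUnit_iff_ne_zero.mpr (by
    rw [WeierstrassCurve.map_Δ]; simpa using hΔ)⟩
  obtain ⟨N₁, Φ, hspan, hΦ, hΦV, hΦg, hΦfix, hΦdet, hΦne⟩ := exists_embedding hp2 I b ⟨v, hv, hvV⟩
    (W.map (Int.castRingHom ℚ)) hirr W.Δ.natAbs.primeFactors (by
    intro ℓ hℓ hℓS hd B hB σ hσ
    have : Fact ℓ.Prime := ⟨hℓ⟩
    have hℓp : ℓ ≠ p := fun h => hd (by rw [h]; exact dvd_mul_left p _)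
    have hgood : W.IsGoodPrimeFor ℓ := fun h => hℓS (Nat.mem_primeFactors.mpr
      ⟨hℓ, Int.natCast_dvd.mp h, Int.natAbs_ne_zero.mpr hΔ⟩)
    obtain ⟨c, hc, hcm⟩ := hcongr ℓ hℓ hgood (fun h => hd (h.mul_right p)) hℓp
    rw [EllFrobenius.galoisTrace_eq_apOfModel W ℓ p hℓp hgood B σ hB hσ, map_intCast,
      ← map_intCast (Ideal.Quotient.mk 𝔪)]
    refine (Ideal.Quotient.eq.mpr ?_).symm
    convert hcm using 2
    exact Subtype.ext ((ha _).trans hc.symm))
  obtain ⟨ℓ, hℓ, hℓT, hℓne⟩ := hΦne (M * q * p).primeFactors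
  have : NeZero ℓ := ⟨hℓ.ne_zero⟩
  have hℓN : ¬ ℓ ∣ M * q * p := fun h => hℓT (Nat.mem_primeFactors.mpr
    ⟨hℓ, h, mul_ne_zero (mul_ne_zero (NeZero.ne M) hq.ne_zero) hp.ne_zero⟩)
  let R : GoodHecke (M * q * p) :=
    P * (MvPolynomial.X ⟨⟨ℓ, hℓ⟩, hℓN⟩ - MvPolynomial.C ((ℓ : ℤ) + 1))
  have hlam : MvPolynomial.eval₂ (Int.castRingHom K) (fun r => b r.1) R ≠ 0 := by
    rw [MvPolynomial.eval₂_mul, MvPolynomial.eval₂_sub, MvPolynomial.eval₂_X,
      MvPolynomial.eval₂_C]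
    exact mul_ne_zero hne (sub_ne_zero.mpr (by simpa [K] using hℓne))
  obtain ⟨E, hE, hEv⟩ := exists_heckeMatrix I b R
  set Wm := mapMat I.model I.model (wJ S) 1 with hWm
  let Z : Matrix (Fin I.model.d) (Fin I.model.d) (ZMod (p ^ 1)) :=
    (levelMat I.model 1 φ + q • Wm) * E
  let φ₁ : ZMod (p ^ 1) →+* K := ZMod.castHom (dvd_pow_self p one_ne_zero) K
  let := φ₁.toAlgebra
  have : Fact (p ^ 1).Prime := ⟨by rwa [pow_one]⟩
  -- the relation on the vectors fixed by inertia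
  have hZ : ∀ c, (∀ σ : A.inertiaSubgroupIn ℚ, levelMat I.model 1 σ.1 *ᵥ c = c) → Z *ᵥ c = 0 :=
    mulVec_eq_zero_of_inertia_three (S := S) (k := 1) hφ hp3 hr hmod h3 hqp hℓ hℓN P
      (by simpa only [pow_one] using hP) I
      hE
  -- on the copy of `E[p]`
  have hmat : ∀ σ, (levelMat I.model 1 σ).map φ₁ = (galMat I.model σ).map (toCharP p K) := by
    intro σ
    ext i j
    rw [Matrix.map_apply, Matrix.map_apply, ← matMod_galMat, matMod_apply]
    set z := galMat I.model σ i j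
    rw [map_eq_of_toZModPow_one (toCharP p K) (y := ((PadicInt.toZModPow 1 z).val : ℤ_[p]))
      (by rw [map_natCast, ZMod.natCast_zmod_val]), map_natCast, ← map_natCast φ₁,
      ZMod.natCast_zmod_val]
  set L := fun σ => (levelMat I.model 1 σ).map φ₁
  have hLΦ : ∀ σ c, L σ *ᵥ Φ c = Φ (N₁ σ *ᵥ c) := fun σ c => by
    rw [← hΦg, galEnd_apply]
    exact congrArg (· *ᵥ Φ c) (hmat σ)
  set Wk := Wm.map φ₁
  have hWL : ∀ σ, Wk * L σ = L σ * Wk := fun σ => by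
    rw [← Matrix.map_mul, ← Matrix.map_mul]
    exact congrArg (·.map φ₁) (mapMat_mul_levelMat I.model I.model
      (isGaloisEquivariant_wJ (S := S)) 1 σ)
  have hWW : Wk * Wk = 1 := by
    rw [← Matrix.map_mul, show Wm * Wm = 1 from mat_ext I.model fun x => by
      rw [← mulVec_mulVec, hWm, mapMat_mulVec, mapMat_mulVec, one_mulVec]
      exact congrArg (I.model.e 1) (torsMap_wJ_wJ x), Matrix.map_one _ φ₁.map_zero φ₁.map_one]
  let : DistribSMul K K := (Semiring.toModule (R := K)).toDistribMulAction.toDistribSMul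
  let : DistribSMul K (Fin I.model.d → K) := Pi.distribSMul _
  have hrel : ∀ c, L φ *ᵥ Φ c + (q : K) • (Wk *ᵥ Φ c) = 0 := by
    intro c
    have h := mulVec_eq_zero_of_fixed Z (fun σ : A.inertiaSubgroupIn ℚ => levelMat I.model 1 σ.1)
      hZ (w := Φ c) fun σ => by
      show L σ.1 *ᵥ Φ c = Φ c
      rw [hLΦ, hΦfix σ.1 (hunr A hA σ.1 σ.2), one_mulVec]
    rw [RingHom.algebraMap_toAlgebra] at h
    rw [map_mulVec_split, hEv _ (hΦV c), mulVec_smul, mulVec_smul,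
      smul_comm (q : K), ← smul_add, smul_eq_zero] at h
    exact h.resolve_left hlam
  obtain ⟨c₀, hc₀, hsq⟩ := exists_scalar_of_swap N₁ Φ hΦ hspan L hLΦ Wk hWL hWW φ (q : K) hrel
  have hdet := hΦdet φ c₀ hc₀
  rw [epsilon_frobenius hq hqp hA hφ, map_natCast] at hdet
  rw [← sq, hdet] at hsq
  have hqK : (q : K) ≠ 0 := by
    rw [Ne, CharP.cast_eq_zero_iff K p]
    exact fun h => hqp ((Nat.prime_dvd_prime_iff_eq hp hq).mp h).symm
  refine hq1 ?_
  rw [← CharP.cast_eq_zero_iff K p, Nat.cast_sub hq.one_le, Nat.cast_one, sub_eq_zero]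
  exact mul_left_cancel₀ hqK (by rw [mul_one]; exact hsq.symm)

end Descend

end MazurThree

open IsLocalRing ModularCurve AlgebraicCurve Fermat.Agent.MazurPrinciple MazurThree

/-- **Mazur's principle at `3`.** -/
theorem mazurThree [Fact (Nat.Prime 3)] (W : WeierstrassCurve ℤ) (M q r : ℕ) (hΔ : W.Δ ≠ 0)
    (hirr : W.ModRepIsIrreducible 3) (hq : q.Prime) (hq3 : q ≠ 3) (hqM : q ∣ M)
    (hM : Squarefree M) (hq1 : ¬ 3 ∣ q - 1) (hunr : Engine.Unramified W 3 q) (hr : r.Prime)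
    (hrM : r ∣ M) (hrq : r ≠ q) (hr3 : r % 3 = 2) (hmod : W.IsResiduallyModularOfLevel 3 M) :
    W.IsResiduallyModularOfLevel 3 (M / q) := by
  obtain ⟨-, -, hndiv, -⟩ := Engine.div_prime_facts hq hqM hM
  obtain ⟨M', rfl⟩ : ∃ M', M = M' * q := ⟨M / q, (Nat.div_mul_cancel hqM).symm⟩
  rw [Nat.mul_div_cancel _ hq.pos] at hndiv ⊢
  have : NeZero M' := ⟨fun h => hM.ne_zero (by rw [h, zero_mul])⟩
  have : NeZero (M' * q) := ⟨hM.ne_zero⟩
  have : NeZero r := ⟨hr.ne_zero⟩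
  have hrM' : r ∣ M' := (hr.dvd_mul.mp hrM).resolve_right fun h =>
    hrq ((Nat.prime_dvd_prime_iff_eq hr hq).mp h)
  have hq2 : q % 3 = 2 := by
    have h0 : ¬ 3 ∣ q := fun h => hq3 ((Nat.prime_dvd_prime_iff_eq (by norm_num) hq).mp h).symm
    have := hq.one_le
    omega
  have hmod3 : (r : ZMod 3) = q := (ZMod.natCast_eq_natCast_iff' r q 3).mpr (hr3.trans hq2.symm)
  have h3 : (q : ZMod 3) ≠ 0 := by
    rw [Ne, ZMod.natCast_eq_zero_iff]
    omega
  obtain ⟨f, 𝔪, hf, h𝔪, hp𝔪, hcongr⟩ := hmod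
  let a : Nat.Primes → integralClosure ℤ ℂ := fun r =>
    ⟨ModularFormClass.qCoeff f (r : ℕ), EigenSystems.isIntegral_qCoeff hf _⟩
  exact Row39.isResiduallyModularOfLevel_of_killed hΔ hq f 𝔪 h𝔪 hp𝔪 hcongr a (fun _ => rfl)
    fun P hP => eval_eq_zero_of_annihilates_three hΔ hirr rfl hrM' hmod3 h3 hq hq3 hndiv hq1 hunr
      f 𝔪 hf h𝔪 hp𝔪 hcongr a (fun _ => rfl) P fun ξ hξ => hP 1 ξ (by rwa [pow_one])

end Fermat.Agent.General

end
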