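import Fermat.Agent.XHLite.Glue.UnitsInst

/-!
# The cube root of `Δ(r z)/Δ(q z)` for `r ≡ q (mod 3)`

`η ^ 8` has weight four with a character which only depends on the matrix modulo `3`. As the
matrices attached to `r` and to `q` agree modulo `3`, the quotient `η(r z) ^ 8 / η(q z) ^ 8` is a
function of level `N` whenever `r ∣ N` and `q ∣ N`.
-/

noncomputable section

open UpperHalfPlane CongruenceSubgroup ModularCurve
open scoped MatrixGroups Manifold

namespace Fermat.Agent.General.MazurThree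

open X0Analytic (perMero modFun scaleGL qp ser coe_scaleGL_smul det_pos_scaleGL etaQ)

local notation "Δ" => ModularForm.discriminant
local notation "den" γ:max z:max => UpperHalfPlane.denom (γ : GL (Fin 2) ℝ) (z : ℍ)

/-- `η ^ 8`. -/
def etaEight (τ : ℍ) : ℂ := qp 3 τ * etaQ τ ^ 8

theorem etaEight_pow (τ : ℍ) : etaEight τ ^ 3 = Δ τ := by
  have hq : qp 3 τ ^ 3 = qp 1 τ := by
    simp only [qp, Function.Periodic.qParam, ← Complex.exp_nat_mul]
    congr 1
    push_cast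
    ring
  rw [etaEight, mul_pow, hq, ← pow_mul, X0Analytic.discriminant_eq]
  rfl

theorem etaEight_ne_zero (τ : ℍ) : etaEight τ ≠ 0 := fun h =>
  ModularForm.discriminant_ne_zero τ (by rw [← etaEight_pow, h, zero_pow three_ne_zero])

theorem mdiff_etaEight : MDiff etaEight := by
  have h := (X0Analytic.mem_holFun.mp (pow_mem (X0Analytic.mem_holFun.mpr X0Analytic.etaQ_mem.1) 8))
  exact (X0Analytic.qp_mdiff 3).mul h

/-! ### The character -/

/-- The value at `i` of the multiplier of `η ^ 8`. -/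
def mult (γ : SL(2, ℤ)) : ℂ :=
  etaEight (γ • UpperHalfPlane.I) / (den γ UpperHalfPlane.I ^ 4 * etaEight UpperHalfPlane.I)

theorem pow_three_ratio (γ : SL(2, ℤ)) (τ : ℍ) :
    (etaEight (γ • τ) / (den γ τ ^ 4 * etaEight τ)) ^ 3 = 1 := by
  rw [div_pow, mul_pow, etaEight_pow, etaEight_pow, X0Analytic.discriminant_smul, ← pow_mul,
    show ((12 : ℤ)) = ((4 * 3 : ℕ) : ℤ) from rfl, zpow_natCast]
  exact div_self (mul_ne_zero (pow_ne_zero _ (UpperHalfPlane.denom_ne_zero _ τ))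
    (ModularForm.discriminant_ne_zero τ))

theorem continuous_den (γ : SL(2, ℤ)) : Continuous fun τ : ℍ => den γ τ := by
  simp only [ModularGroup.denom_apply]
  fun_prop

theorem etaEight_smul (γ : SL(2, ℤ)) (τ : ℍ) :
    etaEight (γ • τ) = mult γ * (den γ τ ^ 4 * etaEight τ) := by
  have hc : Continuous fun τ : ℍ => etaEight (γ • τ) / (den γ τ ^ 4 * etaEight τ) :=
    ((mdiff_etaEight.continuous).comp
      (mdifferentiable_smul (X0Analytic.det_pos_SL γ)).continuous).div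
      (((continuous_den γ).pow 4).mul mdiff_etaEight.continuous) fun z =>
      mul_ne_zero (pow_ne_zero _ (UpperHalfPlane.denom_ne_zero _ z)) (etaEight_ne_zero z)
  have h := XHLite.eq_of_pow_eq_one (X := ℍ) isPreconnected_univ hc.continuousOn three_pos
    (fun x _ => pow_three_ratio γ x) (Set.mem_univ τ) (Set.mem_univ UpperHalfPlane.I)
  rw [mult, ← h, div_mul_cancel₀]
  exact mul_ne_zero (pow_ne_zero _ (UpperHalfPlane.denom_ne_zero _ τ)) (etaEight_ne_zero τ)

theorem mult_pow (γ : SL(2, ℤ)) : mult γ ^ 3 = 1 := pow_three_ratio γ UpperHalfPlane.I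

theorem mult_ne_zero (γ : SL(2, ℤ)) : mult γ ≠ 0 := fun h => by
  simpa [h] using mult_pow γ

theorem mult_mul (γ δ : SL(2, ℤ)) : mult (γ * δ) = mult γ * mult δ := by
  set z : ℍ := UpperHalfPlane.I
  have h1 := etaEight_smul (γ * δ) z
  rw [mul_smul, etaEight_smul, etaEight_smul, XHLite.denom_mul_SL, mul_pow] at h1
  refine (mul_right_cancel₀ (b := den γ (δ • z) ^ 4 * (den δ z ^ 4 * etaEight z)) ?_ ?_).symm
  · exact mul_ne_zero (pow_ne_zero _ (UpperHalfPlane.denom_ne_zero _ _))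
      (mul_ne_zero (pow_ne_zero _ (UpperHalfPlane.denom_ne_zero _ _)) (etaEight_ne_zero _))
  · linear_combination h1

theorem mult_one : mult 1 = 1 := by
  have h := mult_mul 1 1
  rw [one_mul] at h
  exact (mul_eq_left₀ (mult_ne_zero 1)).mp h.symm

theorem mult_S : mult ModularGroup.S = 1 := by
  have hI : ModularGroup.S • UpperHalfPlane.I = UpperHalfPlane.I := by
    apply UpperHalfPlane.ext
    rw [UpperHalfPlane.modular_S_smul]
    simp
  rw [mult, hI, ModularGroup.denom_S, UpperHalfPlane.coe_I, Complex.I_pow_four, one_mul]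
  exact div_self (etaEight_ne_zero _)

/-- The exponent of the character, on matrices modulo `3`. -/
def psi (a b c d : ZMod 3) : ZMod 3 := (a + d) * c - b * d * (c ^ 2 - 1)

/-- The exponent of the character. -/
def psiSL (γ : SL(2, ℤ)) : ZMod 3 :=
  psi (γ 0 0 : ℤ) (γ 0 1 : ℤ) (γ 1 0 : ℤ) (γ 1 1 : ℤ)

theorem psi_S_mul : ∀ a b c d : ZMod 3, a * d - b * c = 1 → psi (-c) (-d) a b = psi a b c d := by
  decide +kernel

theorem psi_T_mul : ∀ a b c d : ZMod 3, a * d - b * c = 1 →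
    psi (a + c) (b + d) c d = psi a b c d + 1 := by
  decide +kernel

theorem det_cast (γ : SL(2, ℤ)) :
    ((γ 0 0 : ℤ) : ZMod 3) * (γ 1 1 : ℤ) - (γ 0 1 : ℤ) * (γ 1 0 : ℤ) = 1 := by
  have h := γ.det_coe
  rw [Matrix.det_fin_two] at h
  exact_mod_cast congrArg (fun x : ℤ => (x : ZMod 3)) h

theorem psiSL_S_mul (γ : SL(2, ℤ)) : psiSL (ModularGroup.S * γ) = psiSL γ := by
  have h := psi_S_mul _ _ _ _ (det_cast γ)
  simpa [psiSL, Matrix.SpecialLinearGroup.coe_mul, ModularGroup.coe_S, Matrix.mul_apply,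
    Fin.sum_univ_two] using h

theorem psiSL_T_mul (γ : SL(2, ℤ)) : psiSL (ModularGroup.T * γ) = psiSL γ + 1 := by
  have h := psi_T_mul _ _ _ _ (det_cast γ)
  simpa [psiSL, Matrix.SpecialLinearGroup.coe_mul, ModularGroup.coe_T, Matrix.mul_apply,
    Fin.sum_univ_two] using h

theorem pow_val_add {x : ℂ} (hx : x ^ 3 = 1) (i j : ZMod 3) :
    x ^ (i + j).val = x ^ i.val * x ^ j.val := by
  rw [← pow_add, ZMod.val_add, pow_eq_pow_mod (i.val + j.val) hx]

/-- **The character only depends on the matrix modulo `3`.** -/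
theorem mult_eq_pow (γ : SL(2, ℤ)) : mult γ = mult ModularGroup.T ^ (psiSL γ).val := by
  have h1 : ((1 : ZMod 3)).val = 1 := rfl
  have hγ : γ ∈ Subgroup.closure {ModularGroup.S, ModularGroup.T} := by
    simp [SpecialLinearGroup.SL2Z_generators]
  induction hγ using Subgroup.closure_induction_left with
  | one => simp [mult_one, psiSL, psi]
  | mul_left x hx y _ ih =>
    rcases hx with rfl | rfl
    · rw [mult_mul, mult_S, one_mul, psiSL_S_mul, ih]
    · rw [mult_mul, psiSL_T_mul, pow_val_add (mult_pow _), h1, pow_one, ih, mul_comm]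
  | inv_mul_cancel x hx y _ ih =>
    rcases hx with rfl | rfl
    · have e := psiSL_S_mul (ModularGroup.S⁻¹ * y)
      rw [mul_inv_cancel_left] at e
      have h := mult_mul ModularGroup.S (ModularGroup.S⁻¹ * y)
      rw [mul_inv_cancel_left, mult_S, one_mul] at h
      rw [← h, ih, e]
    · have e := psiSL_T_mul (ModularGroup.T⁻¹ * y)
      rw [mul_inv_cancel_left] at e
      have h := mult_mul ModularGroup.T (ModularGroup.T⁻¹ * y)
      rw [mul_inv_cancel_left, ih, e, pow_val_add (mult_pow _), h1, pow_one] at h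
      exact mul_left_cancel₀ (mult_ne_zero _) (h.symm.trans (mul_comm _ _))

/-! ### The quotient -/

theorem exists_conj (m : ℕ) [NeZero m] {γ : SL(2, ℤ)} (h : (m : ℤ) ∣ γ 1 0) :
    ∃ δ : SL(2, ℤ), δ 0 0 = γ 0 0 ∧ δ 0 1 = m * γ 0 1 ∧ γ 1 0 = m * δ 1 0 ∧ δ 1 1 = γ 1 1 ∧
      ∀ z : ℍ, scaleGL m • (γ • z) = δ • (scaleGL m • z) ∧
        den δ (scaleGL m • z) = den γ z := by
  obtain ⟨t, ht⟩ := h
  have hdet := γ.det_coe
  rw [Matrix.det_fin_two, ht] at hdet
  let δ : SL(2, ℤ) := ⟨!![γ 0 0, (m : ℤ) * γ 0 1; t, γ 1 1], by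
    rw [Matrix.det_fin_two_of]; linear_combination hdet⟩
  refine ⟨δ, rfl, rfl, ht, rfl, fun z => ?_⟩
  have hm : (m : ℂ) ≠ 0 := Nat.cast_ne_zero.mpr (NeZero.ne m)
  have hden : den δ (scaleGL m • z) = den γ z := by
    rw [ModularGroup.denom_apply, ModularGroup.denom_apply, coe_scaleGL_smul]
    simp only [δ, Matrix.of_apply, Matrix.cons_val',
      Matrix.cons_val_zero, Matrix.cons_val_one, Matrix.cons_val_fin_one, ht]
    push_cast
    ring
  refine ⟨?_, hden⟩
  apply UpperHalfPlane.ext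
  rw [coe_scaleGL_smul, UpperHalfPlane.coe_specialLinearGroup_apply,
    UpperHalfPlane.coe_specialLinearGroup_apply]
  simp only [coe_scaleGL_smul, δ, ht, Matrix.of_apply,
    Matrix.cons_val', Matrix.cons_val_zero, Matrix.cons_val_one, Matrix.cons_val_fin_one,
    algebraMap_int_eq, eq_intCast, Complex.ofReal_intCast]
  push_cast
  ring

/-- `η(r z) ^ 8 / η(q z) ^ 8`. -/
def cubeQuot (r q : ℕ) [NeZero r] [NeZero q] (τ : ℍ) : ℂ :=
  etaEight (scaleGL r • τ) / etaEight (scaleGL q • τ)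

variable {r q N : ℕ} [NeZero r] [NeZero q] [NeZero N]

theorem cubeQuot_pow (τ : ℍ) :
    cubeQuot r q τ ^ 3 = XHLite.deltaQuot q τ * (XHLite.deltaQuot r τ)⁻¹ := by
  have := ModularForm.discriminant_ne_zero τ
  rw [cubeQuot, div_pow, etaEight_pow, etaEight_pow, XHLite.deltaQuot, XHLite.deltaQuot]
  field_simp

theorem mdiff_cubeQuot : MDiff (cubeQuot r q) :=
  UpperHalfPlane.mdifferentiable_iff.mpr
    ((UpperHalfPlane.mdifferentiable_iff.mp
        (mdiff_etaEight.comp (mdifferentiable_smul (det_pos_scaleGL r)))).div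
      (UpperHalfPlane.mdifferentiable_iff.mp
        (mdiff_etaEight.comp (mdifferentiable_smul (det_pos_scaleGL q))))
      fun _ _ => etaEight_ne_zero _)

omit [NeZero N] in
theorem cubeQuot_smul (hr : r ∣ N) (hq : q ∣ N) (hmod : (r : ZMod 3) = q) (h3 : (q : ZMod 3) ≠ 0)
    {γ : SL(2, ℤ)} (hγ : γ ∈ Gamma0 N) (τ : ℍ) : cubeQuot r q (γ • τ) = cubeQuot r q τ := by
  rw [Gamma0_mem, ZMod.intCast_zmod_eq_zero_iff_dvd] at hγ
  obtain ⟨δ, a1, b1, c1, d1, hδ⟩ := exists_conj r ((Int.natCast_dvd_natCast.mpr hr).trans hγ)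
  obtain ⟨ε, a2, b2, c2, d2, hε⟩ := exists_conj q ((Int.natCast_dvd_natCast.mpr hq).trans hγ)
  obtain ⟨e1, e2⟩ := hδ τ
  obtain ⟨f1, f2⟩ := hε τ
  have hm : mult δ = mult ε := by
    have hc : ((δ 1 0 : ℤ) : ZMod 3) = (ε 1 0 : ℤ) := by
      have h := congrArg (fun x : ℤ => (x : ZMod 3)) (c1.symm.trans c2)
      push_cast at h
      rw [hmod] at h
      exact mul_left_cancel₀ h3 h
    have hb : ((δ 0 1 : ℤ) : ZMod 3) = (ε 0 1 : ℤ) := by
      rw [b1, b2]; push_cast; rw [hmod]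
    rw [mult_eq_pow δ, mult_eq_pow ε, psiSL, psiSL, hc, hb, a1, a2, d1, d2]
  rw [cubeQuot, e1, f1, etaEight_smul, etaEight_smul, e2, f2, hm,
    mul_div_mul_left _ _ (mult_ne_zero _), mul_div_mul_left]
  · rfl
  · exact pow_ne_zero _ (UpperHalfPlane.denom_ne_zero _ τ)

omit [NeZero N] in
theorem conj_translation_mem (g : SL(2, ℤ)) :
    g * ModularGroup.T ^ (N : ℤ) * g⁻¹ ∈ Gamma0 N := by
  rw [Gamma0_mem]
  simp only [Matrix.SpecialLinearGroup.coe_mul, Matrix.SpecialLinearGroup.coe_inv,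
    Matrix.adjugate_fin_two, ModularGroup.coe_T_zpow, Matrix.mul_apply, Fin.sum_univ_two,
    Matrix.of_apply, Matrix.cons_val', Matrix.cons_val_zero, Matrix.cons_val_one,
    Matrix.cons_val_fin_one]
  push_cast
  rw [ZMod.natCast_self]
  ring

theorem cubeQuot_mem (hr : r ∣ N) (hq : q ∣ N) (hmod : (r : ZMod 3) = q) (h3 : (q : ZMod 3) ≠ 0) :
    cubeQuot r q ∈ modFun N := by
  refine ⟨mdiff_cubeQuot, fun γ hγ τ => cubeQuot_smul hr hq hmod h3 hγ τ, fun g => ?_⟩
  have hg : MDiff fun τ : ℍ => cubeQuot r q (g • τ) :=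
    mdiff_cubeQuot.comp (mdifferentiable_smul (X0Analytic.det_pos_SL g))
  have hper : X0Analytic.IsPer N fun τ : ℍ => cubeQuot r q (g • τ) := fun τ => by
    have e : g • ((N : ℝ) +ᵥ τ) = (g * ModularGroup.T ^ (N : ℤ) * g⁻¹) • (g • τ) := by
      rw [← mul_smul, inv_mul_cancel_right, mul_smul, UpperHalfPlane.modular_T_zpow_smul]
      norm_num
    show cubeQuot r q (g • ((N : ℝ) +ᵥ τ)) = _
    rw [e, cubeQuot_smul hr hq hmod h3 (conj_translation_mem g)]
  let G : ↥(modFun N) := XHLite.deltaQuotEl hq * XHLite.invDeltaQuotEl hr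
  obtain ⟨-, -, m, hm⟩ := G.2.2.2 g
  refine ⟨hg, hper, m, ?_⟩
  have hm' : IsBoundedAtImInfty
      ((fun τ : ℍ => (G : ℍ → ℂ) (g • τ)) * qp N ^ m * qp N ^ (2 * m)) :=
    Filter.BoundedAtFilter.mul hm (X0Analytic.qp_pow_isBounded N (2 * m))
  rw [UpperHalfPlane.isBoundedAtImInfty_iff] at hm' ⊢
  obtain ⟨C, A, hC⟩ := hm'
  refine ⟨max C 1, A, fun τ hτ => ?_⟩
  have hpow : ((fun τ : ℍ => cubeQuot r q (g • τ)) * qp N ^ m) τ ^ 3 =
      ((fun τ : ℍ => (G : ℍ → ℂ) (g • τ)) * qp N ^ m * qp N ^ (2 * m)) τ := by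
    show (cubeQuot r q (g • τ) * qp N τ ^ m) ^ 3 =
      (XHLite.deltaQuot q (g • τ) * (XHLite.deltaQuot r (g • τ))⁻¹) * qp N τ ^ m * qp N τ ^ (2 * m)
    rw [← cubeQuot_pow, mul_pow, ← pow_mul, mul_assoc, ← pow_add]
    ring
  set x := ((fun τ : ℍ => cubeQuot r q (g • τ)) * qp N ^ m) τ
  rcases le_or_gt ‖x‖ 1 with h | h
  · exact h.trans (le_max_right _ _)
  · refine le_trans ?_ (le_max_left _ _)
    calc ‖x‖ ≤ ‖x‖ ^ 3 := le_self_pow₀ h.le three_ne_zero
      _ = _ := (norm_pow x 3).symm.trans (congrArg norm hpow)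
      _ ≤ C := hC τ hτ

/-- `η(r z) ^ 8 / η(q z) ^ 8` as a modular function. -/
def cubeQuotEl (hr : r ∣ N) (hq : q ∣ N) (hmod : (r : ZMod 3) = q) (h3 : (q : ZMod 3) ≠ 0) :
    ↥(modFun N) :=
  ⟨_, cubeQuot_mem hr hq hmod h3⟩

theorem cubeQuotEl_pow (hr : r ∣ N) (hq : q ∣ N) (hmod : (r : ZMod 3) = q)
    (h3 : (q : ZMod 3) ≠ 0) :
    cubeQuotEl hr hq hmod h3 ^ 3 = XHLite.deltaQuotEl hq * XHLite.invDeltaQuotEl hr :=
  Subtype.ext (funext fun τ => cubeQuot_pow τ)

end Fermat.Agent.General.MazurThree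

end
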