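import Fermat.Agent.General.MazurThree.EtaEight
import Fermat.Agent.MazurPrinciple.Component

/-!
# The exponents at the pairs are prime to `3` if the level has a prime `r ≡ q (mod 3)`

The reduction `a` of `Δ(z)/Δ(q z)` is the product of the cube of the reduction of
`η(r z) ^ 8 / η(q z) ^ 8` and of the reduction of `Δ(z)/Δ(r z)`, which has no zero and no pole on
the affine part. So `3 ∣ ord a` at the pairs, and `e * ord a = 12` gives `¬ 3 ∣ e`.
-/

noncomputable section

open IsLocalRing AlgebraicCurve ModularCurve Fermat.Agent.SemistableRed Fermat.Agent.LevelP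
  Fermat.Agent.MazurPrinciple

namespace Fermat.Agent.General.MazurThree

open XHLite (qSerZ kSer aSer ιS_aSer redS_aSer unitSer deltaUnit qUnit psUnit expandUnit IsRep
  exists_isRep coeffMap_qSerZ ser_deltaQuotEl ser_invDeltaQuotEl deltaQuotEl invDeltaQuotEl
  deltaQuotEl_mul_inv)

local notation "Qbar" => AlgebraicClosure ℚ
local notation "φc" => qbarToComplex

/-- The series of `η(r z) ^ 8 / η(q z) ^ 8`. -/
def cubeSer (r q : ℕ) [NeZero r] [NeZero q] : (LaurentSeries ℤ)ˣ :=
  qUnit ^ (((r : ℤ) - q) / 3) * expandUnit r (psUnit etaProd constantCoeff_etaProd) ^ (8 : ℤ) *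
    expandUnit q (psUnit etaProd constantCoeff_etaProd) ^ (-8 : ℤ)

theorem cubeSer_pow {r q : ℕ} [NeZero r] [NeZero q] (h : (3 : ℤ) ∣ (r : ℤ) - q) :
    cubeSer r q ^ 3 * unitSer r = unitSer q := by
  obtain ⟨t, ht⟩ := h
  have ht' : ((r : ℤ) - q) / 3 = t := by rw [ht]; simp
  simp only [cubeSer, unitSer, deltaUnit, map_mul, map_pow, XHLite.expandUnit_qUnit, ht']
  generalize expandUnit r (psUnit etaProd constantCoeff_etaProd) = Pr
  generalize expandUnit q (psUnit etaProd constantCoeff_etaProd) = Pq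
  generalize psUnit etaProd constantCoeff_etaProd = P
  generalize qUnit = x
  apply Additive.ofMul.injective
  simp only [ofMul_mul, ofMul_inv, ofMul_pow, ofMul_zpow, ← natCast_zsmul]
  push_cast
  rw [show (r : ℤ) = q + 3 * t by linarith]
  module

/-- The series of an element of level `N`. -/
theorem exists_cubeFun {r q N : ℕ} [NeZero r] [NeZero q] [NeZero N] (hr : r ∣ N) (hq : q ∣ N)
    (hmod : (r : ZMod 3) = q) (h3 : (q : ZMod 3) ≠ 0) :
    ∃ f : ↥(modularFunctionFieldBar N), (f : LaurentSeries Qbar) = qSerZ (cubeSer r q) := by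
  have hd : (3 : ℤ) ∣ (r : ℤ) - q := by
    exact (ZMod.intCast_zmod_eq_zero_iff_dvd _ 3).mp (by push_cast; rw [hmod, sub_self])
  set G := cubeQuotEl hr hq hmod h3
  set c : (LaurentSeries ℤ)ˣ →* LaurentSeries ℂ :=
    (coeffMap (Int.castRingHom ℂ)).toMonoidHom.comp (Units.coeHom _) with hc
  have hcu : ∀ u, c u = coeffMap (Int.castRingHom ℂ) (u : LaurentSeries ℤ) := fun u => rfl
  have hcne : ∀ u, c u ≠ 0 := fun u => (u.isUnit.map (coeffMap (Int.castRingHom ℂ))).ne_zero
  have hG : X0Analytic.ser N G ^ 3 = c (cubeSer r q) ^ 3 := by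
    rw [← map_pow, cubeQuotEl_pow, map_mul, ser_deltaQuotEl, ser_invDeltaQuotEl, ← hcu, ← hcu,
      ← map_mul, ← map_pow]
    exact congrArg c (mul_inv_eq_iff_eq_mul.mpr (cubeSer_pow hd).symm)
  set ω : ℂ := Complex.exp (2 * Real.pi * Complex.I / 3)
  have hω : IsPrimitiveRoot ω 3 := by
    simpa [ω] using Complex.isPrimitiveRoot_exp 3 three_ne_zero
  have hω' : IsPrimitiveRoot (algebraMap ℂ (LaurentSeries ℂ) ω) 3 :=
    hω.map_of_injective (algebraMap ℂ (LaurentSeries ℂ)).injective
  obtain ⟨i, -, hi⟩ := hω'.eq_pow_of_pow_eq_one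
    (ξ := X0Analytic.ser N G / c (cubeSer r q))
    (by rw [div_pow, hG, div_self (pow_ne_zero _ (hcne _))])
  rw [eq_div_iff (hcne _), ← map_pow] at hi
  have hser : X0Analytic.ser N (algebraMap ℂ ↥(X0Analytic.modFun N) (ω ^ i)⁻¹ * G) =
      coeffMap φc (qSerZ (cubeSer r q)) := by
    rw [map_mul, X0Analytic.ser_algebraMap, ← ModularCurve.algebraMap_laurentSeries_eq_single,
      ← hi, ← mul_assoc, ← map_mul, inv_mul_cancel₀ (pow_ne_zero _ (hω.ne_zero three_ne_zero)),
      map_one, one_mul, coeffMap_qSerZ]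
    rfl
  obtain ⟨f, hf, -⟩ := exists_isRep φc hser
  exact ⟨f, hf⟩

/-- A shortcut for instance search. -/
local instance algebraFullC {k : Type*} [Field k] (N : ℕ) [NeZero N] :
    Algebra k (modularFunctionFieldFullC k N) :=
  inferInstance

variable {A : ValuationSubring Qbar} {M q : ℕ} [NeZero M] [NeZero q] [Fact q.Prime]
  [CharP (ResidueField A) q] [IsAlgClosed (ResidueField A)] {S : Setting A M q}

/-- The reduction of `Δ(z)/Δ(r z)` has order zero on the affine part. -/
theorem exists_red_unit (S : Setting A M q) {r : ℕ} [NeZero r] (hr : r ∣ M) :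
    ∃ b : ↥(modularFunctionFieldFullC (ResidueField A) M),
      (b : LaurentSeries (ResidueField A)) = kSer A (unitSer r) ∧
        ∀ P, S.splitModel.C P = 0 → P.ord b = 0 := by
  have := isFunctionField_level (M * q)
  have := S.isFunctionField_C
  have hz : ∀ u : (LaurentSeries ℤ)ˣ, SRep (A := A) (qSerZ u) (kSer A u) := fun u => by
    rw [← ιS_aSer, ← redS_aSer]; exact SRep.series _
  have key : ∀ (u : (LaurentSeries ℤ)ˣ) (G G' : ↥(X0Analytic.modFun M))
      (H H' : ↥(X0Analytic.modFun (M * q))), X0Analytic.ser M G = coeffMap (Int.castRingHom ℂ)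
        (u : LaurentSeries ℤ) → X0Analytic.ser (M * q) H = coeffMap (Int.castRingHom ℂ)
        (u : LaurentSeries ℤ) → H * H' = 1 →
      ∃ b : ↥(modularFunctionFieldFullC (ResidueField A) M),
        (b : LaurentSeries (ResidueField A)) = kSer A u ∧
          ∀ P, S.splitModel.C P = 0 → 0 ≤ P.ord b := by
    intro u G G' H H' hG hH hHH
    obtain ⟨v, hv, -⟩ := exists_isRep φc (z := qSerZ u) (G := G) (by rw [coeffMap_qSerZ, hG])
    set f := heckeAlphaBar Qbar M q v
    have h0 : SRep (A := A) (S.side 0 f) (kSer A u) := by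
      rw [(S.side_alpha v).1, hv]; exact hz u
    have h1 : SRep (A := A) (S.side 1 f) (qExpand (ResidueField A) q (kSer A u)) := by
      rw [(S.side_alpha v).2, hv]; exact (hz u).qExpand q
    obtain ⟨i0, r0⟩ := S.red_eq (v := ⟨_, S.srep_mem h0⟩) h0
    obtain ⟨i1, -⟩ := S.red_eq (v := ⟨_, S.srep_mem h1⟩) h1
    have hrep : IsRep φc f H := by
      rw [IsRep, coe_heckeAlphaBar, hv, coeffMap_qSerZ, hH]
    obtain ⟨m, hm⟩ := XHLite.exists_mem_mul S.splitModel.H_nonneg (f := f) fun P hP =>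
      le_of_eq (hrep.ord_eq_zero φc hHH P (by
        rw [← XHLite.jEl0_eq]; exact ((S.polesH_eq_zero_iff P).mp hP).1)).symm
    have hb := S.splitModel.bound m f (fun i => by
      obtain rfl | rfl : i = 0 ∨ i = 1 := by omega
      exacts [i0, i1]) hm 0
    refine ⟨S.splitModel.red 0 f, congrArg Subtype.val r0, fun P hP => ?_⟩
    rcases mem_rrs_iff.mp hb with h | h
    · rw [h]; simp
    · have := h P
      rw [Finsupp.smul_apply, hP, smul_zero, neg_zero] at this
      exact this
  obtain ⟨b, hb, hb0⟩ := key (unitSer r) (deltaQuotEl hr) (invDeltaQuotEl hr)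
    (deltaQuotEl (hr.mul_right q)) (invDeltaQuotEl (hr.mul_right q)) (ser_deltaQuotEl hr)
    (ser_deltaQuotEl _) (deltaQuotEl_mul_inv _)
  obtain ⟨b', hb', hb0'⟩ := key (unitSer r)⁻¹ (invDeltaQuotEl hr) (deltaQuotEl hr)
    (invDeltaQuotEl (hr.mul_right q)) (deltaQuotEl (hr.mul_right q)) (ser_invDeltaQuotEl hr)
    (ser_invDeltaQuotEl _) ((mul_comm _ _).trans (deltaQuotEl_mul_inv _))
  refine ⟨b, hb, fun P hP => ?_⟩
  have h1 : b * b' = 1 := Subtype.ext (by
    rw [MulMemClass.coe_mul, hb, hb', kSer, kSer, ← map_mul, ← Units.val_mul, mul_inv_cancel,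
      Units.val_one, map_one, OneMemClass.coe_one])
  have h2 := P.ord_mul (left_ne_zero_of_mul_eq_one h1) (right_ne_zero_of_mul_eq_one h1)
  rw [h1, P.ord_one] at h2
  linarith [hb0 P hP, hb0' P hP]

attribute [local instance] HeckeJ0.hasPrincipalDivisors_bar

variable [FunctionFieldRR.IsFunctionField (ResidueField A) ↥(modularFunctionFieldFullC (ResidueField A) M)]
  [HasPrincipalDivisors (ResidueField A) ↥(modularFunctionFieldFullC (ResidueField A) M)]
  [CharP ↥(modularFunctionFieldFullC (ResidueField A) M) q]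

/-- **The exponents at the pairs are prime to `3`.** -/
theorem coprime_pair (U : LevelUnit S) {r : ℕ} [NeZero r] (hr : r ∣ M)
    (hmod : (r : ZMod 3) = q) (h3 : (q : ZMod 3) ≠ 0) {x} (hx : x ∈ S.splitModel.pairs) :
    ¬ 3 ∣ (pairAt U hx).e := by
  have := isFunctionField_level (M * q)
  obtain ⟨f, hf⟩ := exists_cubeFun (hr.mul_right q) (dvd_mul_left q M) hmod h3
  have h0 : SRep (A := A) (S.side 0 f) (kSer A (cubeSer r q)) := by
    rw [Setting.side_zero, hf, ← ιS_aSer, ← redS_aSer]; exact SRep.series _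
  obtain ⟨b, hb, hb0⟩ := exists_red_unit S hr
  set c : ↥(modularFunctionFieldFullC (ResidueField A) M) := ⟨_, S.srep_mem h0⟩
  have hd : (3 : ℤ) ∣ (r : ℤ) - q := by
    exact (ZMod.intCast_zmod_eq_zero_iff_dvd _ 3).mp (by push_cast; rw [hmod, sub_self])
  have ha : S.splitModel.red 0 U.w = c ^ 3 * b := Subtype.ext (by
    rw [U.red0, MulMemClass.coe_mul, SubmonoidClass.coe_pow, hb]
    show kSer A (unitSer q) = kSer A (cubeSer r q) ^ 3 * kSer A (unitSer r)
    rw [kSer, kSer, kSer, ← map_pow, ← map_mul, ← Units.val_pow_eq_pow_val, ← Units.val_mul,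
      cubeSer_pow hd])
  have hane := U.red0_ne
  rw [ha] at hane
  have hC : S.splitModel.C x.1 = 0 := (S.splitModel.mem_pairs.mp hx).1
  have h12 := ord_unit_pair U hx
  rw [ha, x.1.ord_mul (left_ne_zero_of_mul hane) (right_ne_zero_of_mul hane), hb0 _ hC, add_zero,
    ← zpow_natCast, Place.ord_zpow] at h12
  rintro ⟨k, hk⟩
  rw [hk] at h12
  push_cast at h12
  have : (3 : ℤ) ∣ 4 := ⟨(k : ℤ) * x.1.ord c, by linarith⟩
  omega

end Fermat.Agent.General.MazurThree

end
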